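/-
MLT / L1 / VertR (helper6), part 1: **a vertical function of multiplicity `4` with an auxiliary prime**,
the series.  Port of `L1/Vert3/Series.lean` (helper3) with the pair `(q, 2)` replaced by `(q, r)`.

`q`, `r` primes `≡ 2 mod 3`.  The Laurent series `t_q / t_r = (η(rz)/η(qz))⁸`, with
`t_s = E₄² / (η(z) η(sz))⁸` (`eeTLS`), satisfies `(t_q / t_r)³ · D_r = D_q`, `D_s = Δ(z)/Δ(sz)`
(`unitFinLS`).  It lies in the function field of `X₀(N)` over any field `L` of characteristic `0` as soon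
as `q ∣ N` and `r ∣ N`.

* `mltcvLS K q r`, `mltcvLS_cube : g³ · D_r = D_q`;
* `mltcvLS_mem : g ∈ TaF L N`; `lsMapHom_mltcvLS` (base change).
-/
import Mathlib
import Fermat.Agent.Lib.MLT.L1.Vert3.Series

set_option autoImplicit false
set_option linter.unusedSectionVars false
set_option linter.unusedVariables false
set_option linter.style.haveILetI false

open HahnSeries ModularCurve Fermat.Agent.Igusa Fermat.Agent.T1 Fermat.Agent.Eis Fermat.Agent.Delta

noncomputable section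

namespace Fermat.Agent.MLT

section Series

variable (K : Type*) [Field K] (q r : ℕ) [NeZero q] [NeZero r]

/-- the vertical function of multiplicity `4`: `t_q / t_r = (η(rz)/η(qz))⁸` -/
def mltcvLS : LaurentSeries K :=
  eeTLS K q ((q + 1) / 3) * (eeTLS K r ((r + 1) / 3))⁻¹

theorem mltcv_eeTLS_ne_zero (hr3 : r % 3 = 2) : eeTLS K r ((r + 1) / 3) ≠ 0 := by
  intro h
  have hr : r + 1 = 3 * ((r + 1) / 3) := by omega
  have h1 := eeTLS_cube K r hr
  rw [h, zero_pow (by norm_num)] at h1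
  exact mul_ne_zero (pow_ne_zero 2 (mltl1_jqModC_ne_zero K)) (dlxv_unitFinLS_ne_zero K r) h1.symm

/-- **`g³ · D_r = D_q`** -/
theorem mltcvLS_cube (hq3 : q % 3 = 2) (hr3 : r % 3 = 2) :
    mltcvLS K q r ^ 3 * unitFinLS K r = unitFinLS K q := by
  unfold mltcvLS
  have hq : q + 1 = 3 * ((q + 1) / 3) := by omega
  have hr : r + 1 = 3 * ((r + 1) / 3) := by omega
  have e1 := eeTLS_cube K q hq
  have e2 := eeTLS_cube K r hr
  have hj := mltl1_jqModC_ne_zero K
  have hDr := dlxv_unitFinLS_ne_zero K r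
  rw [mul_pow, inv_pow, e1, e2]
  field_simp

theorem mltcvLS_ne_zero (hq3 : q % 3 = 2) (hr3 : r % 3 = 2) : mltcvLS K q r ≠ 0 := by
  intro h
  have h1 := mltcvLS_cube K q r hq3 hr3
  rw [h, zero_pow (by norm_num), zero_mul] at h1
  exact dlxv_unitFinLS_ne_zero K q h1.symm

variable {K}

theorem lsMapHom_mltcvLS {S : Type*} [Field S] (φ : K →+* S) :
    lsMapHom φ (mltcvLS K q r) = mltcvLS S q r := by
  unfold mltcvLS
  rw [map_mul, map_inv₀, lsMapHom_eeTLS, lsMapHom_eeTLS]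

end Series

section Field

variable (L : Type*) [Field L] [Algebra ℚ L] (N : ℕ) [NeZero N] (q r : ℕ) [hq : Fact q.Prime]
  [hr : Fact r.Prime]

/-- the vertical function over `ℚ` lies in `ℚ(X₀(N))` -/
theorem mltcvLS_mem_full (hqN : q ∣ N) (hrN : r ∣ N) (hq3 : q % 3 = 2) (hr3 : r % 3 = 2) :
    haveI : NeZero q := ⟨hq.out.ne_zero⟩
    haveI : NeZero r := ⟨hr.out.ne_zero⟩
    mltcvLS ℚ q r ∈ modularFunctionFieldFull N := by
  haveI : NeZero q := ⟨hq.out.ne_zero⟩
  haveI : NeZero r := ⟨hr.out.ne_zero⟩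
  unfold mltcvLS
  refine mul_mem (full_degeneracy_le hqN (eeTLS_mem_full q (by omega))) (inv_mem ?_)
  exact full_degeneracy_le hrN (eeTLS_mem_full r (by omega))

/-- the vertical function lies in `L(X₀(N))` -/
theorem mltcvLS_mem (hqN : q ∣ N) (hrN : r ∣ N) (hq3 : q % 3 = 2) (hr3 : r % 3 = 2) :
    haveI : NeZero q := ⟨hq.out.ne_zero⟩
    haveI : NeZero r := ⟨hr.out.ne_zero⟩
    mltcvLS L q r ∈ TaF L N := by
  haveI : NeZero q := ⟨hq.out.ne_zero⟩
  haveI : NeZero r := ⟨hr.out.ne_zero⟩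
  have h := coeffEmb_mem_laurentBaseChange L (mltcvLS_mem_full N q r hqN hrN hq3 hr3)
  rwa [ta_coeffEmb_eq_lsMapHom, lsMapHom_mltcvLS] at h

end Field

end Fermat.Agent.MLT
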