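/-
MLT / L1 / VertR (helper6), part 2: **the vertical function of multiplicity `4` in `F_{N' q, L}`, with an
auxiliary prime `r ∣ N'`**.  Port of `L1/Vert3/Unit.lean` (helper3) with `(q, 2)` replaced by `(q, r)`.

`L` a field of characteristic `0`, `q`, `r` primes `≡ 2 mod 3`, `r ∣ N'`, `W : T2iAL L N' q` an
Atkin–Lehner datum:
* `mltcvG : ↥(TaF L (N' * q))` with `q`-expansion `mltcvLS L q r`; `mltcvG_cube : g³ · D_r = D_q`;
* `D_r` is a unit at `v_∞`, at `v_0`, and at every place where `j` is regular;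
* hence: `mltcvG_val_inf : v_∞(g) = 1`, `mltcvG_val_zero : v_0(g) < 1`, `mltcvG_hor`,
  `mltcvG_ord_zero : 3 · ord_{v_0} g = ord_{v_0} D_q`.
-/
import Mathlib
import Fermat.Agent.Lib.MLT.L1.VertR.Series
import Fermat.Agent.Lib.MLT.L1.Vert3.Unit

set_option autoImplicit false
set_option linter.unusedSectionVars false
set_option linter.unusedVariables false
set_option linter.style.haveILetI false
set_option synthInstance.maxHeartbeats 400000

open Polynomial HahnSeries ModularCurve Fermat.Agent.Igusa Fermat.Agent.T1 Fermat.Agent.T2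
  Fermat.Agent.T4 Fermat.Agent.Mazur Fermat.Agent.Delta Fermat.Agent.Eis

noncomputable section

namespace Fermat.Agent.MLT

/-! ### the element -/

section Elt

variable {L : Type*} [Field L] [Algebra ℚ L] {N' q r : ℕ} [NeZero N'] [hq : Fact q.Prime]
  [hr : Fact r.Prime]

attribute [local instance] mltl1_neZero_q mltl1_neZero_mul

variable (L N' q r)

/-- **the vertical function of multiplicity `4`** in `F_{N' q, L}` -/
def mltcvG (hrN : r ∣ N') (hq3 : q % 3 = 2) (hr3 : r % 3 = 2) : ↥(TaF L (N' * q)) :=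
  ⟨mltcvLS L q r, mltcvLS_mem L (N' * q) q r (dvd_mul_left q N') (hrN.mul_right q) hq3 hr3⟩

/-- **`g³ · D_r = D_q`** -/
theorem mltcvG_cube (hrN : r ∣ N') (hq3 : q % 3 = 2) (hr3 : r % 3 = 2) :
    mltcvG L N' q r hrN hq3 hr3 ^ 3 * dlxvD (N' * q) (hrN.mul_right q)
      = dlxvD (N' * q) (dvd_mul_left q N') := by
  apply Subtype.ext
  show mltcvLS L q r ^ 3 * unitFinLS L r = unitFinLS L q
  exact mltcvLS_cube L q r hq3 hr3

theorem mltcvG_ne_zero (hrN : r ∣ N') (hq3 : q % 3 = 2) (hr3 : r % 3 = 2) :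
    mltcvG L N' q r hrN hq3 hr3 ≠ 0 := by
  intro h
  have h1 := congrArg (fun z : ↥(TaF L (N' * q)) => (z : LaurentSeries L)) h
  exact mltcvLS_ne_zero L q r hq3 hr3 h1

end Elt

/-! ### the valuations -/

section Val

variable {L : Type*} [Field L] [Algebra ℚ L] {N' q r : ℕ} [NeZero N'] [hq : Fact q.Prime]
  [hr : Fact r.Prime]
  (W : T2iAL L N' q)
  (O : ValuationSubring L) {k : Type*} [Field k]
  (π : ↥O →+* k) [IsDiscreteValuationRing ↥O] (hπ : Function.Surjective π)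

attribute [local instance] mltl1_neZero_q mltl1_neZero_mul

/-- `D_r` is a unit at `v_∞` -/
theorem mltcvU_val_inf (hrN : r ∣ N') :
    (taOv O π hπ (N' * q)).valuation (dlxvD (L := L) (N' * q) (hrN.mul_right q)) = 1 :=
  dlxvD_val_inf O π hπ (N' * q) (hrN.mul_right q)

/-- `D_r` at the level `N' q` comes from the level `N'` -/
theorem mltcv_Dr_eq_alpha (hrN : r ∣ N') :
    dlxvD (L := L) (N' * q) (hrN.mul_right q) = heckeAlphaBar L N' q (dlxvD N' hrN) := by
  apply Subtype.ext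
  rw [coe_heckeAlphaBar]
  rfl

/-- `D_r` is a unit at `v_0` -/
theorem mltcvU_val_zero (hrN : r ∣ N') :
    (dliO0 O π hπ W).valuation (dlxvD (L := L) (N' * q) (hrN.mul_right q)) = 1 := by
  have hD0 := dlxvD_ne_zero (L := L) (N' * q) (hrN.mul_right q)
  have hd0 := dlxvD_ne_zero (L := L) N' hrN
  rw [dlxv_comap_val_eq_one (taOv O π hπ (N' * q))
    (W.w : ↥(TaF L (N' * q)) →+* ↥(TaF L (N' * q))) hD0]
  show (taOv O π hπ (N' * q)).valuation (W.w (dlxvD (N' * q) (hrN.mul_right q))) = 1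
  rw [mltcv_Dr_eq_alpha hrN, W.w_alpha]
  have hb0 : heckeBetaBar L N' q (dlxvD N' hrN) ≠ 0 :=
    (_root_.map_ne_zero (heckeBetaBar L N' q)).mpr hd0
  rw [t4vp_valuation_eq_one_iff _ hb0]
  constructor
  · rw [mem_taOv_iff, coe_heckeBetaBar]
    exact t2i_taGauss_qExpand O π q ((mem_taOv_iff O π hπ N' _).mp (dlxvD_mem_taOv O π hπ N' hrN))
  · rw [← map_inv₀, mem_taOv_iff, coe_heckeBetaBar]
    exact t2i_taGauss_qExpand O π q
      ((mem_taOv_iff O π hπ N' _).mp (dlxvD_inv_mem_taOv O π hπ N' hrN))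

/-- `D_r` is a unit wherever `j` is regular -/
theorem mltcvU_unit_of_taJ_mem (hrN : r ∣ N') {V : ValuationSubring ↥(TaF L (N' * q))}
    (hL : ∀ c : L, algebraMap L ↥(TaF L (N' * q)) c ∈ V) (h : taJ (N' * q) ∈ V) :
    V.valuation (dlxvD (L := L) (N' * q) (hrN.mul_right q)) = 1 :=
  mltl1_D_unit_of_taJ_mem (N' * q) hr.out (hrN.mul_right q) hL h

/-- the valuation of `g³` -/
theorem mltcvG_val_cube (hrN : r ∣ N') (hq3 : q % 3 = 2) (hr3 : r % 3 = 2)
    (V : ValuationSubring ↥(TaF L (N' * q)))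
    (hU : V.valuation (dlxvD (L := L) (N' * q) (hrN.mul_right q)) = 1) :
    V.valuation (mltcvG L N' q r hrN hq3 hr3 ^ 3) =
      V.valuation (dlxvD (N' * q) (dvd_mul_left q N')) := by
  rw [← mltcvG_cube L N' q r hrN hq3 hr3, map_mul, hU, mul_one]

/-- **`v_∞(g) = 1`** -/
theorem mltcvG_val_inf (hrN : r ∣ N') (hq3 : q % 3 = 2) (hr3 : r % 3 = 2) :
    (taOv O π hπ (N' * q)).valuation (mltcvG L N' q r hrN hq3 hr3) = 1 := by
  apply mltl1_val_eq_one_of_pow _ (n := 3) (by norm_num)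
  rw [mltcvG_val_cube hrN hq3 hr3 _ (mltcvU_val_inf O π hπ hrN)]
  exact dlxvD_val_inf O π hπ (N' * q) (dvd_mul_left q N')

/-- **`v_0(g) < 1`** (`q = 0` in the residue field) -/
theorem mltcvG_val_zero (hrN : r ∣ N') (hq3 : q % 3 = 2) (hr3 : r % 3 = 2) (hqk : (q : k) = 0) :
    (dliO0 O π hπ W).valuation (mltcvG L N' q r hrN hq3 hr3) < 1 := by
  apply mltl1_val_lt_one_of_pow _ (n := 3) (by norm_num)
  rw [mltcvG_val_cube hrN hq3 hr3 _ (mltcvU_val_zero W O π hπ hrN)]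
  exact dlxvD_val_zero W O π hπ hqk

/-- **`g` is a unit at every place of `F / L` at which the symmetric chart is regular** -/
theorem mltcvG_hor (hrN : r ∣ N') (hq3 : q % 3 = 2) (hr3 : r % 3 = 2) {Q : ℕ} (hQ : 2 ≤ Q)
    (V : ValuationSubring ↥(TaF L (N' * q))) (hV : V ∈ t4vpHor L (dlxvX W Q)) :
    V.valuation (mltcvG L N' q r hrN hq3 hr3) = 1 := by
  have hL : ∀ c : L, algebraMap L ↥(TaF L (N' * q)) c ∈ V := t4vp_algebraMap_mem_hor hV
  have hj : taJ (N' * q) ∈ V := by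
    obtain ⟨v, rfl, hx⟩ := hV
    exact dlxv_taJ_mem_of_chart W hQ hL hx
  apply mltl1_val_eq_one_of_pow _ (n := 3) (by norm_num)
  rw [mltcvG_val_cube hrN hq3 hr3 _ (mltcvU_unit_of_taJ_mem hrN hL hj)]
  exact dlxv_hor W hQ V hV

/-- **`3 · ord_{v_0} g = ord_{v_0} D_q`** -/
theorem mltcvG_ord_zero (hrN : r ∣ N') (hq3 : q % 3 = 2) (hr3 : r % 3 = 2)
    [IsDiscreteValuationRing ↥(dliO0 O π hπ W)] :
    3 * dlOrd (dliO0 O π hπ W) (mltcvG L N' q r hrN hq3 hr3) =
      dlOrd (dliO0 O π hπ W) (dlxvD (N' * q) (dvd_mul_left q N')) := by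
  have hg0 := mltcvG_ne_zero L N' q r hrN hq3 hr3
  have hU0 := dlxvD_ne_zero (L := L) (N' * q) (hrN.mul_right q)
  rw [← mltcvG_cube L N' q r hrN hq3 hr3, dlOrd_mul _ (pow_ne_zero 3 hg0) hU0, dlOrd_pow,
    (dl_valuation_eq_one_iff _ hU0).mp (mltcvU_val_zero W O π hπ hrN), add_zero]
  norm_num

end Val

end Fermat.Agent.MLT
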