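/-
MLT / L1 / VertR (helper6), part 3: **the vertical function of multiplicity `4` at the level `H`, with
an auxiliary prime `r ∣ N'`**.  Port of `L1/Vert3/Level.lean` (helper3).

`𝔓 | q`, `q ≡ 2 mod 3`, `H ≤ I_𝔓` of finite index, `r ∣ N'` a prime `≡ 2 mod 3`, `q ∤ N'`:
* `mltcvVertD 𝔓 H N' r hrN hq3 hr3 : ↥(tbLevF 𝔓 (N' * q) H)`, `mltcvVertU` (the correcting unit `D_r`);
* `mltcvVertD_hor`, `_val_inf`, `_val_zero`, `_phi`, `_ord_zero_of_unif : ord_{v_0} = 4 e`;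
* `mltcvVert : DlqfVert (dlxChart1 …)` (the analogue of `dlqVert` with `dlxVertD` replaced).
-/
import Mathlib
import Fermat.Agent.Lib.MLT.L1.VertR.Unit
import Fermat.Agent.Lib.Delta.Core.Main

set_option autoImplicit false
set_option linter.unusedSectionVars false
set_option linter.unusedVariables false
set_option linter.style.haveILetI false
set_option synthInstance.maxHeartbeats 400000
set_option maxHeartbeats 1000000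

open HahnSeries ModularCurve Fermat.Agent.Igusa Fermat.Agent.T1 Fermat.Agent.T2
  Fermat.Agent.T4 Fermat.Agent.TW Fermat.Agent.Delta Fermat.Agent.S33 Fermat.Agent.S33Q

noncomputable section

namespace Fermat.Agent.MLT

local notation "Qb" => AlgebraicClosure ℚ

attribute [local instance] t2i_dvr t2i_isAlgClosed t2i_charP t2i_fact
attribute [local instance 10000] dliAlgF dliAlgE
attribute [local instance] mltl1_neZero_q mltl1_neZero_mul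

section LevelH

variable (𝔓 : FFPlace) (H : Subgroup 𝔓.I) [H.FiniteIndex] (N' : ℕ) [NeZero N'] (h : ¬ 𝔓.p ∣ N')
  (r : ℕ) [hr : Fact r.Prime] (hrN : r ∣ N') (hq3 : 𝔓.p % 3 = 2) (hr3 : r % 3 = 2)

/-- **the vertical function of multiplicity `4`** of `X₀(N' q)` over `L_H` -/
def mltcvVertD : ↥(tbLevF 𝔓 (N' * 𝔓.p) H) :=
  mltcvG (↥(tbFix 𝔓 H)) N' 𝔓.p r hrN hq3 hr3

/-- the correcting unit `D_r` -/
def mltcvVertU : ↥(tbLevF 𝔓 (N' * 𝔓.p) H) :=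
  dlxvD (L := ↥(tbFix 𝔓 H)) (N' * 𝔓.p) (hrN.mul_right 𝔓.p)

theorem mltcvVertD_cube :
    mltcvVertD 𝔓 H N' r hrN hq3 hr3 ^ 3 * mltcvVertU 𝔓 H N' r hrN = dlxVertD 𝔓 H N' :=
  mltcvG_cube (↥(tbFix 𝔓 H)) N' 𝔓.p r hrN hq3 hr3

theorem mltcvVertD_ne_zero : mltcvVertD 𝔓 H N' r hrN hq3 hr3 ≠ 0 :=
  mltcvG_ne_zero (↥(tbFix 𝔓 H)) N' 𝔓.p r hrN hq3 hr3

theorem mltcvVertU_ne_zero : mltcvVertU 𝔓 H N' r hrN ≠ 0 :=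
  dlxvD_ne_zero (L := ↥(tbFix 𝔓 H)) (N' * 𝔓.p) (hrN.mul_right 𝔓.p)

theorem coe_mltcvVertD :
    ((mltcvVertD 𝔓 H N' r hrN hq3 hr3 : ↥(tbLevF 𝔓 (N' * 𝔓.p) H)) :
      LaurentSeries ↥(tbFix 𝔓 H)) = mltcvLS ↥(tbFix 𝔓 H) 𝔓.p r := rfl

theorem coe_mltcvVertU :
    ((mltcvVertU 𝔓 H N' r hrN : ↥(tbLevF 𝔓 (N' * 𝔓.p) H)) : LaurentSeries ↥(tbFix 𝔓 H)) =
      unitFinLS ↥(tbFix 𝔓 H) r := rfl

/-- `g` is a unit at every horizontal place of the chart -/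
theorem mltcvVertD_hor {Q : ℕ} (hQ : 2 ≤ Q) (V : ValuationSubring ↥(tbLevF 𝔓 (N' * 𝔓.p) H))
    (hV : V ∈ t4vpHor ↥(tbFix 𝔓 H) (t2gaX 𝔓 H N' h Q)) :
    V.valuation (mltcvVertD 𝔓 H N' r hrN hq3 hr3) = 1 :=
  mltcvG_hor (t2iALFix 𝔓 H N' h) hrN hq3 hr3 hQ V hV

/-- `v_∞(g) = 1` -/
theorem mltcvVertD_val_inf :
    (taOv (tbFixO 𝔓 H) (tbFixRes 𝔓 H) (tbFixRes_surjective 𝔓 H) (N' * 𝔓.p)).valuation
      (mltcvVertD 𝔓 H N' r hrN hq3 hr3) = 1 :=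
  mltcvG_val_inf _ _ _ hrN hq3 hr3

/-- `v_0(g) < 1` -/
theorem mltcvVertD_val_zero :
    (dliO0 (tbFixO 𝔓 H) (tbFixRes 𝔓 H) (tbFixRes_surjective 𝔓 H)
      (t2iALFix 𝔓 H N' h)).valuation (mltcvVertD 𝔓 H N' r hrN hq3 hr3) < 1 :=
  mltcvG_val_zero (t2iALFix 𝔓 H N' h) _ _ _ hrN hq3 hr3
    (CharP.cast_eq_zero (IsLocalRing.ResidueField ↥𝔓.P) 𝔓.p)

/-- the `q`-expansion over `ℚ̄` -/
theorem mltcvVertD_phi :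
    ((tbPhiF 𝔓 (N' * 𝔓.p) H (mltcvVertD 𝔓 H N' r hrN hq3 hr3) :
      ↥(modularFunctionFieldBar (N' * 𝔓.p))) : LaurentSeries Qb) = mltcvLS Qb 𝔓.p r := by
  rw [coe_tbPhiF, coe_mltcvVertD]
  exact lsMapHom_mltcvLS 𝔓.p r (algebraMap ↥(tbFix 𝔓 H) Qb)

theorem mltcvVertU_phi :
    ((tbPhiF 𝔓 (N' * 𝔓.p) H (mltcvVertU 𝔓 H N' r hrN) :
      ↥(modularFunctionFieldBar (N' * 𝔓.p))) : LaurentSeries Qb) = unitFinLS Qb r := by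
  rw [coe_tbPhiF, coe_mltcvVertU]
  exact lsMapHom_unitFinLS (algebraMap ↥(tbFix 𝔓 H) Qb) r

/-- `ord_{v_0} g = 4 e` if `q = η ϖ ^ e`, `η` a unit and `ϖ` a uniformiser of `O_H` -/
theorem mltcvVertD_ord_zero_of_unif
    [IsDiscreteValuationRing ↥(dliO0 (tbFixO 𝔓 H) (tbFixRes 𝔓 H) (tbFixRes_surjective 𝔓 H)
      (t2iALFix 𝔓 H N' h))]
    {ϖ : ↥(tbFixO 𝔓 H)} (hϖ : Irreducible ϖ) {η : ↥(tbFixO 𝔓 H)} (hη : IsUnit η) {e : ℕ}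
    (hpe : (𝔓.p : ↥(tbFix 𝔓 H)) = (η : ↥(tbFix 𝔓 H)) * (ϖ : ↥(tbFix 𝔓 H)) ^ e) :
    dlOrd (dliO0 (tbFixO 𝔓 H) (tbFixRes 𝔓 H) (tbFixRes_surjective 𝔓 H) (t2iALFix 𝔓 H N' h))
      (mltcvVertD 𝔓 H N' r hrN hq3 hr3) = 4 * (e : ℤ) := by
  have h1 := mltcvG_ord_zero (t2iALFix 𝔓 H N' h) (tbFixO 𝔓 H) (tbFixRes 𝔓 H)
    (tbFixRes_surjective 𝔓 H) hrN hq3 hr3
  have h3 := dlxVertD_ord_zero_of_unif 𝔓 H N' h hϖ hη hpe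
  have h4 : dlOrd (dliO0 (tbFixO 𝔓 H) (tbFixRes 𝔓 H) (tbFixRes_surjective 𝔓 H) (t2iALFix 𝔓 H N' h))
      (dlxvD (L := ↥(tbFix 𝔓 H)) (N' * 𝔓.p) (dvd_mul_left 𝔓.p N')) = 12 * (e : ℤ) := h3
  rw [h4] at h1
  have h5 : dlOrd (dliO0 (tbFixO 𝔓 H) (tbFixRes 𝔓 H) (tbFixRes_surjective 𝔓 H) (t2iALFix 𝔓 H N' h))
      (mltcvG (↥(tbFix 𝔓 H)) N' 𝔓.p r hrN hq3 hr3) = 4 * (e : ℤ) := by omega
  exact h5

end LevelH

section Vert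

variable (𝔓 : FFPlace) (H : Subgroup 𝔓.I) [H.FiniteIndex] {ϖ : ↥(tbFixO 𝔓 H)}
  (hϖ : Irreducible ϖ) (N' : ℕ) [NeZero N'] (h : ¬ 𝔓.p ∣ N') (h49 : 4 ∣ N' ∨ 9 ∣ N') {n : ℕ}
  (su : T2Setup (t2iBase2Fix 𝔓 H N' h) (Fin n))
  (hx : su.x = t2gaX 𝔓 H N' h (𝔓.p ^ 2)) (hxb : su.xb = (s33qXi 𝔓 N', s33qXi 𝔓 N'))
  (r : ℕ) [hr : Fact r.Prime] (hrN : r ∣ N') (hq3 : 𝔓.p % 3 = 2) (hr3 : r % 3 = 2)

include hx in
/-- `g` is a unit at all horizontal valuation rings of chart 1 -/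
theorem mltcv_vert_hor1 (V : ValuationSubring ↥(tbLevF 𝔓 (N' * 𝔓.p) H))
    (hV : V ∈ t4vpHor ↥(tbFix 𝔓 H) (dlxChart1 𝔓 H hϖ N' h h49 su hx hxb).x) :
    V.valuation (mltcvVertD 𝔓 H N' r hrN hq3 hr3) = 1 := by
  have hQ : 2 ≤ 𝔓.p ^ 2 := by
    have := 𝔓.hp.two_le
    nlinarith
  rw [dlxChart1_x, hx] at hV
  exact mltcvVertD_hor 𝔓 H N' h r hrN hq3 hr3 hQ V hV

/-- (FIN-X), (HENS) and the vertical function of multiplicity `4` for chart 1 at the level `H` -/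
def mltcvVert : DlqfVert (dlxChart1 𝔓 H hϖ N' h h49 su hx hxb) where
  hfin := dlxChart1_finAt 𝔓 H hϖ N' h h49 su hx hxb
  hens := dlx_hensH 𝔓 H hϖ N'
  D := mltcvVertD 𝔓 H N' r hrN hq3 hr3
  hD0 := mltcvVertD_ne_zero 𝔓 H N' r hrN hq3 hr3
  hDhor := mltcv_vert_hor1 𝔓 H hϖ N' h h49 su hx hxb r hrN hq3 hr3
  hD1 := mltcvVertD_val_inf 𝔓 H N' r hrN hq3 hr3
  hD2 := mltcvVertD_val_zero 𝔓 H N' h r hrN hq3 hr3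

@[simp] theorem mltcvVert_D :
    (mltcvVert 𝔓 H hϖ N' h h49 su hx hxb r hrN hq3 hr3).D = mltcvVertD 𝔓 H N' r hrN hq3 hr3 := rfl

end Vert

end Fermat.Agent.MLT
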